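/-
S15 block Pair (owner helper75), P2, abstract part (MATHLIB ONLY).

* `adjoint_of_eichlerShimura` : `T = φ + p φ⁻¹` on `V` and `e (φ x) (φ y) = e x y ^ p` imply that `T` is
  self-adjoint on `V`.
* `adjoint_closure` : if the elements of `S ⊆ End J` preserve `V`, commute on `V` and are self-adjoint on
  `V`, the same holds for the subring generated by `S`.
* `nondeg_of_idempotent` : a self-adjoint projector of `V` onto `E` makes `e` nondegenerate on `E`.
-/
import Fermat.Agent.S15.Pair.Defs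

set_option autoImplicit false

namespace Fermat.Agent.S15.Pair

variable {J Ω : Type*} [AddCommGroup J] [Field Ω]

/-- `t` is self-adjoint on `V`. -/
def SelfAdj (V : AddSubgroup J) (e : J → J → Ω) (t : J → J) : Prop :=
  ∀ x ∈ V, ∀ y ∈ V, e (t x) y = e x (t y)

/-- **P2a**.  PROOF: for `z ∈ V`, (ES) at `x = φ⁻¹ • z` gives `T z = φ • z + p • φ⁻¹ • z`.  Then
`e (φ x) y = e (φ x) (φ (φ⁻¹ y)) = e x (φ⁻¹ y) ^ p` and
`e (φ⁻¹ x) y ^ p = e (φ (φ⁻¹ x)) (φ y) = e x (φ y)`. -/
theorem adjoint_of_eichlerShimura {Γ : Type*} [Group Γ] [DistribMulAction Γ J] {V : AddSubgroup J}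
    {e : J → J → Ω} (h : IsBimul V e) (φ : Γ) (hφ : ∀ x ∈ V, φ • x ∈ V)
    (hφ' : ∀ x ∈ V, φ⁻¹ • x ∈ V) (T : J → J) (p : ℕ)
    (hES : ∀ x ∈ V, φ • φ • x - T (φ • x) + p • x = 0)
    (hequiv : ∀ x ∈ V, ∀ y ∈ V, e (φ • x) (φ • y) = e x y ^ p) : SelfAdj V e T := by
  have hT : ∀ z ∈ V, T z = φ • z + p • φ⁻¹ • z := by
    intro z hz
    have h1 := hES (φ⁻¹ • z) (hφ' z hz)
    rw [smul_inv_smul] at h1
    rw [← sub_eq_zero, ← neg_eq_zero, ← h1]
    abel
  intro x hx y hy
  have hx1 := hφ x hx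
  have hx2 := hφ' x hx
  have hy1 := hφ y hy
  have hy2 := hφ' y hy
  have e1 : e (φ • x) y = e x (φ⁻¹ • y) ^ p := by
    rw [← hequiv x hx _ hy2, smul_inv_smul]
  have e2 : e (φ⁻¹ • x) y ^ p = e x (φ • y) := by
    rw [← hequiv _ hx2 y hy, smul_inv_smul]
  rw [hT x hx, hT y hy, h.add_left _ hx1 _ (V.nsmul_mem hx2 p) _ hy,
    h.add_right _ hx _ hy1 _ (V.nsmul_mem hy2 p), h.nsmul_left hx2 hy, h.nsmul_right hx hy2, e1, e2,
    mul_comm]

/-- **P2b**.  PROOF: three `Subring.closure_induction`s.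
(1) every `t ∈ closure S` preserves `V` and commutes on `V` with every `s ∈ S`;
(2) every `t ∈ closure S` commutes on `V` with every `t' ∈ closure S`;
(3) every `t ∈ closure S` is self-adjoint on `V`
(`e (t t' x) y = e (t' x) (t y) = e x (t' (t y)) = e x (t (t' y))`; sums: `add_left`, `add_right`;
`neg_left`, `neg_right`; `0`: `zero_left`, `zero_right`). -/
theorem adjoint_closure {V : AddSubgroup J} {e : J → J → Ω} (h : IsBimul V e)
    (S : Set (AddMonoid.End J)) (hV : ∀ s ∈ S, ∀ x ∈ V, s x ∈ V)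
    (hcomm : ∀ s ∈ S, ∀ s' ∈ S, ∀ x ∈ V, s (s' x) = s' (s x))
    (hadj : ∀ s ∈ S, SelfAdj V e s) :
    ∀ t ∈ Subring.closure S, (∀ x ∈ V, t x ∈ V) ∧ SelfAdj V e t ∧
      ∀ t' ∈ Subring.closure S, ∀ x ∈ V, t (t' x) = t' (t x) := by
  have h1 : ∀ t ∈ Subring.closure S,
      (∀ x ∈ V, t x ∈ V) ∧ ∀ s ∈ S, ∀ x ∈ V, t (s x) = s (t x) := by
    intro t ht
    induction ht using Subring.closure_induction with
    | mem t ht => exact ⟨hV t ht, fun s hs x hx => hcomm t ht s hs x hx⟩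
    | zero => exact ⟨fun x _ => V.zero_mem, fun s _ x _ => (map_zero s).symm⟩
    | one => exact ⟨fun x hx => hx, fun s _ x _ => rfl⟩
    | add a b _ _ ha hb =>
      refine ⟨fun x hx => V.add_mem (ha.1 x hx) (hb.1 x hx), fun s hs x hx => ?_⟩
      show a (s x) + b (s x) = s (a x + b x)
      rw [map_add, ha.2 s hs x hx, hb.2 s hs x hx]
    | neg a _ ha =>
      refine ⟨fun x hx => V.neg_mem (ha.1 x hx), fun s hs x hx => ?_⟩
      show -(a (s x)) = s (-(a x))
      rw [map_neg, ha.2 s hs x hx]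
    | mul a b _ _ ha hb =>
      refine ⟨fun x hx => ha.1 _ (hb.1 x hx), fun s hs x hx => ?_⟩
      show a (b (s x)) = s (a (b x))
      rw [hb.2 s hs x hx, ha.2 s hs _ (hb.1 x hx)]
  have h2 : ∀ t ∈ Subring.closure S, ∀ t' ∈ Subring.closure S, ∀ x ∈ V,
      t (t' x) = t' (t x) := by
    intro t ht t' ht'
    induction ht' using Subring.closure_induction with
    | mem s hs => exact fun x hx => (h1 t ht).2 s hs x hx
    | zero => exact fun x _ => map_zero t
    | one => exact fun x _ => rfl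
    | add a b _ _ ha hb =>
      intro x hx
      show t (a x + b x) = a (t x) + b (t x)
      rw [map_add, ha x hx, hb x hx]
    | neg a _ ha =>
      intro x hx
      show t (-(a x)) = -(a (t x))
      rw [map_neg, ha x hx]
    | mul a b _ hb' ha hb =>
      intro x hx
      show t (a (b x)) = a (b (t x))
      rw [ha _ ((h1 b hb').1 x hx), hb x hx]
  have h3 : ∀ t ∈ Subring.closure S, SelfAdj V e t := by
    intro t ht
    induction ht using Subring.closure_induction with
    | mem s hs => exact hadj s hs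
    | zero =>
      intro x hx y hy
      show e 0 y = e x 0
      rw [h.zero_left hy, h.zero_right hx]
    | one =>
      intro x hx y hy
      rfl
    | add a b ha' hb' ha hb =>
      intro x hx y hy
      show e (a x + b x) y = e x (a y + b y)
      rw [h.add_left _ ((h1 a ha').1 x hx) _ ((h1 b hb').1 x hx) _ hy,
        h.add_right _ hx _ ((h1 a ha').1 y hy) _ ((h1 b hb').1 y hy), ha x hx y hy, hb x hx y hy]
    | neg a ha' ha =>
      intro x hx y hy
      show e (-(a x)) y = e x (-(a y))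
      rw [h.neg_left ((h1 a ha').1 x hx) hy, h.neg_right hx ((h1 a ha').1 y hy), ha x hx y hy]
    | mul a b ha' hb' ha hb =>
      intro x hx y hy
      show e (a (b x)) y = e x (a (b y))
      rw [ha _ ((h1 b hb').1 x hx) y hy, hb x hx _ ((h1 a ha').1 y hy), h2 b hb' a ha' y hy]
  exact fun t ht => ⟨(h1 t ht).1, h3 t ht, h2 t ht⟩

/-- **P2c** -/
theorem nondeg_of_idempotent {V E : AddSubgroup J} {e : J → J → Ω} (hnd : Nondeg V e)
    (hE : E ≤ V) (eps : J → J) (h1 : ∀ x ∈ V, eps x ∈ E) (h2 : ∀ x ∈ E, eps x = x)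
    (hadj : SelfAdj V e eps) : Nondeg E e := by
  intro x hx hxy
  refine hnd x (hE hx) fun z hz => ?_
  rw [← h2 x hx, hadj x (hE hx) z hz]
  exact hxy _ (h1 z hz)

end Fermat.Agent.S15.Pair
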