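/-
S15 block Pair (owner helper75), P0 + P4: formal properties of the Weil pairing `S19.Weil.weil`
on a function field in one variable which are not in S19/Weil:
antisymmetry (`weil_swap`), additivity on the right, multiples, values are `n`-th roots of unity,
and the compatibility between the levels `n * m` and `n`
(`weil_mul_left`, `weil_mul_right`, `weil_mul_pow`).
-/
import Fermat.Agent.S19.Weil.Pairing

set_option autoImplicit false

noncomputable section

namespace Fermat.Agent.S15.Pair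

open AlgebraicCurve Fermat.Agent.S24.FF Fermat.Agent.S27 Fermat.Agent.S19.Weil

variable {K F : Type*} [Field K] [Field F] [Algebra K F] [IsAlgClosed K] [CharZero K] [IsFF1 K F]
  [NonConst K F]

/-- antisymmetry -/
theorem weil_swap {n : ℕ} (hn : 0 < n) {x y : Pic0 K F} (hx : (n : ℤ) • x = 0)
    (hy : (n : ℤ) • y = 0) : weil n y x = (weil n x y)⁻¹ := by
  obtain ⟨b, -⟩ := exists_torsRep hy (∅ : Finset (Place K F))
  obtain ⟨a, ha⟩ := exists_disjoint_torsRep hx b
  rw [weil_eq hn a b ha, weil_eq hn b a ha.symm, weilRep_swap]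

theorem weil_add_right {n : ℕ} (hn : 0 < n) {x y y' : Pic0 K F} (hx : (n : ℤ) • x = 0)
    (hy : (n : ℤ) • y = 0) (hy' : (n : ℤ) • y' = 0) :
    weil n x (y + y') = weil n x y * weil n x y' := by
  have hyy : (n : ℤ) • (y + y') = 0 := by rw [zsmul_add, hy, hy', add_zero]
  rw [weil_swap hn hyy hx, weil_add_left hn hy hy' hx, weil_swap hn hx hy, weil_swap hn hx hy',
    mul_inv, inv_inv, inv_inv]

theorem weil_zero_left {n : ℕ} (hn : 0 < n) {y : Pic0 K F} (hy : (n : ℤ) • y = 0) :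
    weil n 0 y = 1 := by
  have h := weil_add_left hn (x := (0 : Pic0 K F)) (x' := 0) (smul_zero _) (smul_zero _) hy
  rw [add_zero] at h
  exact (mul_eq_left₀ (weil_ne_zero hn 0 y)).1 h.symm

theorem weil_zero_right {n : ℕ} (hn : 0 < n) {x : Pic0 K F} (hx : (n : ℤ) • x = 0) :
    weil n x 0 = 1 := by
  rw [weil_swap hn (x := (0 : Pic0 K F)) (smul_zero _) hx, weil_zero_left hn hx, inv_one]

theorem weil_nsmul_left {n : ℕ} (hn : 0 < n) {x y : Pic0 K F} (hx : (n : ℤ) • x = 0)
    (hy : (n : ℤ) • y = 0) (k : ℕ) : weil n (k • x) y = weil n x y ^ k := by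
  induction k with
  | zero => rw [zero_nsmul, pow_zero, weil_zero_left hn hy]
  | succ k ih =>
    have hk : (n : ℤ) • (k • x) = 0 := by rw [← natCast_zsmul, smul_comm, hx, smul_zero]
    rw [succ_nsmul, weil_add_left hn hk hx hy, ih, pow_succ]

theorem weil_nsmul_right {n : ℕ} (hn : 0 < n) {x y : Pic0 K F} (hx : (n : ℤ) • x = 0)
    (hy : (n : ℤ) • y = 0) (k : ℕ) : weil n x (k • y) = weil n x y ^ k := by
  have hk : (n : ℤ) • (k • y) = 0 := by rw [← natCast_zsmul, smul_comm, hy, smul_zero]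
  rw [weil_swap hn hk hx, weil_nsmul_left hn hy hx, weil_swap hn hx hy, inv_pow, inv_inv]

theorem weil_neg_left {n : ℕ} (hn : 0 < n) {x y : Pic0 K F} (hx : (n : ℤ) • x = 0)
    (hy : (n : ℤ) • y = 0) : weil n (-x) y = (weil n x y)⁻¹ := by
  have hx' : (n : ℤ) • (-x) = 0 := by rw [zsmul_neg, hx, neg_zero]
  have h := weil_add_left hn hx hx' hy
  rw [add_neg_cancel, weil_zero_left hn hy] at h
  exact eq_inv_of_mul_eq_one_right h.symm

theorem weil_neg_right {n : ℕ} (hn : 0 < n) {x y : Pic0 K F} (hx : (n : ℤ) • x = 0)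
    (hy : (n : ℤ) • y = 0) : weil n x (-y) = (weil n x y)⁻¹ := by
  have hy' : (n : ℤ) • (-y) = 0 := by rw [zsmul_neg, hy, neg_zero]
  have h := weil_add_right hn hx hy hy'
  rw [add_neg_cancel, weil_zero_right hn hx] at h
  exact eq_inv_of_mul_eq_one_right h.symm

theorem weil_sub_left {n : ℕ} (hn : 0 < n) {x x' y : Pic0 K F} (hx : (n : ℤ) • x = 0)
    (hx' : (n : ℤ) • x' = 0) (hy : (n : ℤ) • y = 0) :
    weil n (x - x') y = weil n x y / weil n x' y := by
  have h : (n : ℤ) • (-x') = 0 := by rw [zsmul_neg, hx', neg_zero]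
  rw [sub_eq_add_neg, weil_add_left hn hx h hy, weil_neg_left hn hx' hy, div_eq_mul_inv]

theorem weil_sub_right {n : ℕ} (hn : 0 < n) {x y y' : Pic0 K F} (hx : (n : ℤ) • x = 0)
    (hy : (n : ℤ) • y = 0) (hy' : (n : ℤ) • y' = 0) :
    weil n x (y - y') = weil n x y / weil n x y' := by
  have h : (n : ℤ) • (-y') = 0 := by rw [zsmul_neg, hy', neg_zero]
  rw [sub_eq_add_neg, weil_add_right hn hx hy h, weil_neg_right hn hx hy', div_eq_mul_inv]

theorem weil_zsmul_left {n : ℕ} (hn : 0 < n) {x y : Pic0 K F} (hx : (n : ℤ) • x = 0)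
    (hy : (n : ℤ) • y = 0) (k : ℤ) : weil n (k • x) y = weil n x y ^ k := by
  obtain ⟨k, rfl | rfl⟩ := k.eq_nat_or_neg
  · rw [natCast_zsmul, zpow_natCast, weil_nsmul_left hn hx hy]
  · have hk : (n : ℤ) • (k • x) = 0 := by rw [← natCast_zsmul, smul_comm, hx, smul_zero]
    rw [neg_zsmul, natCast_zsmul, zpow_neg, zpow_natCast, weil_neg_left hn hk hy,
      weil_nsmul_left hn hx hy]

theorem weil_zsmul_right {n : ℕ} (hn : 0 < n) {x y : Pic0 K F} (hx : (n : ℤ) • x = 0)
    (hy : (n : ℤ) • y = 0) (k : ℤ) : weil n x (k • y) = weil n x y ^ k := by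
  have hk : (n : ℤ) • (k • y) = 0 := by rw [smul_comm, hy, smul_zero]
  rw [weil_swap hn hk hx, weil_zsmul_left hn hy hx, weil_swap hn hx hy, inv_zpow, inv_inv]

/-- the values are `n`-th roots of unity -/
theorem weil_pow_eq_one {n : ℕ} (hn : 0 < n) {x y : Pic0 K F} (hx : (n : ℤ) • x = 0)
    (hy : (n : ℤ) • y = 0) : weil n x y ^ n = 1 := by
  rw [← weil_nsmul_left hn hx hy, ← natCast_zsmul, hx, weil_zero_left hn hy]

/-- alternating -/
theorem weil_self {n : ℕ} (hn : 0 < n) {x : Pic0 K F} (hx : (n : ℤ) • x = 0)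
    (hodd : Odd n) : weil n x x = 1 := by
  have h0 : weil n x x = (weil n x x)⁻¹ := weil_swap hn hx hx
  have h1 : weil n x x * weil n x x = 1 := by
    nth_rewrite 1 [h0]
    exact inv_mul_cancel₀ (weil_ne_zero hn x x)
  obtain ⟨k, hk⟩ := hodd
  have h2 := weil_pow_eq_one hn hx hx
  generalize weil n x x = w at h1 h2
  rw [hk, pow_succ, pow_mul, pow_two, h1, one_pow, one_mul] at h2
  exact h2

/-! ## P4: change of level -/

/-- **P4**: `e_{nm}(x, y) = e_n(m x, y)` for `x` killed by `n m`, `y` killed by `n`. -/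
theorem weil_mul_left {n m : ℕ} (hn : 0 < n) (hm : 0 < m) {x y : Pic0 K F}
    (hx : ((n * m : ℕ) : ℤ) • x = 0) (hy : (n : ℤ) • y = 0) :
    weil (n * m) x y = weil n ((m : ℤ) • x) y := by
  obtain ⟨b, -⟩ := exists_torsRep hy (∅ : Finset (Place K F))
  let b' : TorsRep (n * m) y :=
    { D := b.D
      f := b.f ^ m
      deg := b.deg
      cls_eq := b.cls_eq
      div := by
        have h := rep_isDivOf_pow b.div m
        rwa [smul_smul, mul_comm, ← Nat.cast_mul] at h }
  obtain ⟨a, ha⟩ := exists_disjoint_torsRep hx b'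
  have ha0 : Disjoint a.D.support b.D.support := ha
  let a' : TorsRep n ((m : ℤ) • x) :=
    { D := (m : ℤ) • a.D
      f := a.f
      deg := by rw [map_zsmul, a.deg, smul_zero]
      cls_eq := by rw [rep_cls_natCast_zsmul a.deg, a.cls_eq]
      div := by
        have h := a.div
        rwa [Nat.cast_mul, ← smul_smul] at h }
  have ha' : Disjoint a'.D.support b.D.support := by
    rw [Pairing.disjoint_iff]
    intro v hv
    refine Pairing.disjoint_iff.1 ha0 v fun h0 => hv ?_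
    show ((m : ℤ) • a.D) v = 0
    rw [Finsupp.smul_apply, h0, smul_zero]
  have ub : UnitOn b.f a.D := ⟨b.div.1, fun v hv => by
    rw [← b.div.2 v, Finsupp.smul_apply, Pairing.disjoint_iff.1 ha0 v hv, smul_zero]⟩
  rw [weil_eq (Nat.mul_pos hn hm) a b' ha, weil_eq hn a' b ha', weilRep, weilRep]
  show evDiv a.f b.D / evDiv (b.f ^ m) a.D = evDiv a.f b.D / evDiv b.f ((m : ℤ) • a.D)
  rw [evDiv_pow ub, evDiv_zsmul ub, zpow_natCast]

/-- **P4**, right version. -/
theorem weil_mul_right {n m : ℕ} (hn : 0 < n) (hm : 0 < m) {x y : Pic0 K F}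
    (hx : (n : ℤ) • x = 0) (hy : ((n * m : ℕ) : ℤ) • y = 0) :
    weil (n * m) x y = weil n x ((m : ℤ) • y) := by
  have hx' : ((n * m : ℕ) : ℤ) • x = 0 := by
    rw [Nat.cast_mul, mul_comm, ← smul_smul, hx, smul_zero]
  have hy' : (n : ℤ) • ((m : ℤ) • y) = 0 := by rw [smul_smul, ← Nat.cast_mul, hy]
  rw [weil_swap (Nat.mul_pos hn hm) hy hx', weil_mul_left hn hm hy hx, weil_swap hn hx hy', inv_inv]

/-- **P4**, the form used by LocN: `e_n(m X, m Y) = e_{nm}(X, Y)^m`. -/
theorem weil_mul_pow {n m : ℕ} (hn : 0 < n) (hm : 0 < m) {x y : Pic0 K F}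
    (hx : ((n * m : ℕ) : ℤ) • x = 0) (hy : ((n * m : ℕ) : ℤ) • y = 0) :
    weil n ((m : ℤ) • x) ((m : ℤ) • y) = weil (n * m) x y ^ m := by
  have hy' : (n : ℤ) • ((m : ℤ) • y) = 0 := by rw [smul_smul, ← Nat.cast_mul, hy]
  rw [← weil_mul_left hn hm hx hy', weil_zsmul_right (Nat.mul_pos hn hm) hx hy, zpow_natCast]

end Fermat.Agent.S15.Pair

end
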