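/-
S15 block Pair (owner helper75): abstract bimultiplicative pairings on a subgroup `G` of an abelian
group `J`, with values in a field `Ω` (MATHLIB ONLY).

In the application `J = JZero N`, `G = J[r]` or `Eis N r`, `e = S19.Weil.weil r`, `Ω = ℚ̄`.
-/
import Mathlib

set_option autoImplicit false

namespace Fermat.Agent.S15.Pair

variable {J Ω : Type*} [AddCommGroup J] [Field Ω]

/-- `e` is a bimultiplicative pairing on `G` (with values in `Ωˣ`). -/
structure IsBimul (G : AddSubgroup J) (e : J → J → Ω) : Prop where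
  ne_zero : ∀ x ∈ G, ∀ y ∈ G, e x y ≠ 0
  add_left : ∀ x ∈ G, ∀ x' ∈ G, ∀ y ∈ G, e (x + x') y = e x y * e x' y
  add_right : ∀ x ∈ G, ∀ y ∈ G, ∀ y' ∈ G, e x (y + y') = e x y * e x y'

/-- `e` is (left) nondegenerate on `G`. -/
def Nondeg (G : AddSubgroup J) (e : J → J → Ω) : Prop :=
  ∀ x ∈ G, (∀ y ∈ G, e x y = 1) → x = 0

/-- `X` is isotropic. -/
def Isotropic (X : Set J) (e : J → J → Ω) : Prop := ∀ x ∈ X, ∀ y ∈ X, e x y = 1

namespace IsBimul

variable {G H : AddSubgroup J} {e : J → J → Ω}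

theorem mono (h : IsBimul G e) (hH : H ≤ G) : IsBimul H e :=
  ⟨fun x hx y hy => h.ne_zero x (hH hx) y (hH hy),
    fun x hx x' hx' y hy => h.add_left x (hH hx) x' (hH hx') y (hH hy),
    fun x hx y hy y' hy' => h.add_right x (hH hx) y (hH hy) y' (hH hy')⟩

theorem zero_left (h : IsBimul G e) {y : J} (hy : y ∈ G) : e 0 y = 1 := by
  have h1 := h.add_left 0 G.zero_mem 0 G.zero_mem y hy
  rw [add_zero] at h1
  exact (mul_eq_left₀ (h.ne_zero 0 G.zero_mem y hy)).1 h1.symm

theorem zero_right (h : IsBimul G e) {x : J} (hx : x ∈ G) : e x 0 = 1 := by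
  have h1 := h.add_right x hx 0 G.zero_mem 0 G.zero_mem
  rw [add_zero] at h1
  exact (mul_eq_left₀ (h.ne_zero x hx 0 G.zero_mem)).1 h1.symm

theorem nsmul_left (h : IsBimul G e) {x y : J} (hx : x ∈ G) (hy : y ∈ G) (k : ℕ) :
    e (k • x) y = e x y ^ k := by
  induction k with
  | zero => rw [zero_nsmul, pow_zero, h.zero_left hy]
  | succ k ih => rw [succ_nsmul, h.add_left _ (G.nsmul_mem hx k) _ hx _ hy, ih, pow_succ]

theorem nsmul_right (h : IsBimul G e) {x y : J} (hx : x ∈ G) (hy : y ∈ G) (k : ℕ) :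
    e x (k • y) = e x y ^ k := by
  induction k with
  | zero => rw [zero_nsmul, pow_zero, h.zero_right hx]
  | succ k ih => rw [succ_nsmul, h.add_right _ hx _ (G.nsmul_mem hy k) _ hy, ih, pow_succ]

theorem neg_left (h : IsBimul G e) {x y : J} (hx : x ∈ G) (hy : y ∈ G) :
    e (-x) y = (e x y)⁻¹ := by
  have h1 := h.add_left x hx (-x) (G.neg_mem hx) y hy
  rw [add_neg_cancel, h.zero_left hy] at h1
  exact eq_inv_of_mul_eq_one_right h1.symm

theorem neg_right (h : IsBimul G e) {x y : J} (hx : x ∈ G) (hy : y ∈ G) :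
    e x (-y) = (e x y)⁻¹ := by
  have h1 := h.add_right x hx y hy (-y) (G.neg_mem hy)
  rw [add_neg_cancel, h.zero_right hx] at h1
  exact eq_inv_of_mul_eq_one_right h1.symm

theorem sub_left (h : IsBimul G e) {x x' y : J} (hx : x ∈ G) (hx' : x' ∈ G) (hy : y ∈ G) :
    e (x - x') y = e x y / e x' y := by
  rw [sub_eq_add_neg, h.add_left _ hx _ (G.neg_mem hx') _ hy, h.neg_left hx' hy, div_eq_mul_inv]

theorem sub_right (h : IsBimul G e) {x y y' : J} (hx : x ∈ G) (hy : y ∈ G) (hy' : y' ∈ G) :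
    e x (y - y') = e x y / e x y' := by
  rw [sub_eq_add_neg, h.add_right _ hx _ hy _ (G.neg_mem hy'), h.neg_right hx hy', div_eq_mul_inv]

/-- if `r` kills `x` then the values `e x y` are `r`-th roots of unity -/
theorem pow_eq_one (h : IsBimul G e) {x y : J} (hx : x ∈ G) (hy : y ∈ G) {r : ℕ}
    (hr : r • x = 0) : e x y ^ r = 1 := by
  rw [← h.nsmul_left hx hy, hr, h.zero_left hy]

end IsBimul

end Fermat.Agent.S15.Pair
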