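/-
S15 block Pair (owner helper75): the Weil pairing on `J₀(N)[n]` as an abstract pairing
(`IsBimul`, `Nondeg`), Galois equivariance, finiteness.
-/
import Fermat.Agent.S15.Contracts
import Fermat.Agent.S15.Pair.Basic
import Fermat.Agent.S15.Pair.Defs
import Fermat.Agent.S19.Glue.Defs
import Fermat.Agent.S19.Weil.Nondeg
import Fermat.Agent.S19.Weil.Divisible

set_option autoImplicit false

noncomputable section

namespace Fermat.Agent.S15.Pair

open ModularCurve AlgebraicCurve Fermat.Agent.S24 Fermat.Agent.S19.Weil Fermat.Agent.S19.Glue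

/-- `J₀(N)[n]` as a subgroup of `J₀(N)`. -/
def tors (N n : ℕ) : AddSubgroup (JZero N) where
  carrier := {x | n • x = 0}
  zero_mem' := smul_zero _
  add_mem' := by
    intro x y hx hy
    show n • (x + y) = 0
    rw [nsmul_add, show n • x = 0 from hx, show n • y = 0 from hy, add_zero]
  neg_mem' := by
    intro x hx
    show n • (-x) = 0
    rw [neg_nsmul, show n • x = 0 from hx, neg_zero]

theorem mem_tors {N n : ℕ} {x : JZero N} : x ∈ tors N n ↔ n • x = 0 := Iff.rfl

theorem zsmul_of_mem_tors {N n : ℕ} {x : JZero N} (hx : x ∈ tors N n) : (n : ℤ) • x = 0 := by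
  rw [natCast_zsmul]
  exact hx

theorem mem_tors_of_zsmul {N n : ℕ} {x : JZero N} (hx : (n : ℤ) • x = 0) : x ∈ tors N n := by
  rw [natCast_zsmul] at hx
  exact hx

theorem smul_mem_tors {N n : ℕ} (σ : GQ) {x : JZero N} (hx : x ∈ tors N n) :
    σ • x ∈ tors N n := by
  show n • (σ • x) = 0
  have h := (DistribSMul.toAddMonoidHom (JZero N) σ).map_nsmul n x
  rw [show n • x = 0 from hx, map_zero] at h
  exact h.symm

theorem end_mem_tors {N n : ℕ} (t : AddMonoid.End (JZero N)) {x : JZero N} (hx : x ∈ tors N n) :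
    t x ∈ tors N n := by
  show n • (t x) = 0
  rw [← map_nsmul, show n • x = 0 from hx, map_zero]

theorem eis_le_tors (N r : ℕ) [NeZero N] : Eis N r ≤ tors N r := fun _ hx => hx.1

variable (N : ℕ) [NeZero N]

theorem isBimul_tors {n : ℕ} (hn : 0 < n) : IsBimul (tors N n) (weil n) := by
  have := isFF1 N
  have := nonConst N
  exact ⟨fun x _ y _ => weil_ne_zero hn x y,
    fun x hx x' hx' y hy => weil_add_left hn (zsmul_of_mem_tors hx) (zsmul_of_mem_tors hx')
      (zsmul_of_mem_tors hy),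
    fun x hx y hy y' hy' => weil_add_right hn (zsmul_of_mem_tors hx) (zsmul_of_mem_tors hy)
      (zsmul_of_mem_tors hy')⟩

theorem nondeg_tors {n : ℕ} (hn : 0 < n) : Nondeg (tors N n) (weil n) := by
  have := isFF1 N
  have := nonConst N
  intro x hx hxy
  by_contra hx0
  obtain ⟨y, hy, hy1⟩ := weil_nondegenerate (pic0Divisible Kbar ⟨Fermat.Agent.S24.iota⟩) hn
    (zsmul_of_mem_tors hx) hx0
  exact hy1 (hxy y (mem_tors_of_zsmul hy))

/-- Galois equivariance of the Weil pairing. -/
theorem weil_gal {n : ℕ} (hn : 0 < n) (σ : GQ) {x y : JZero N} (hx : x ∈ tors N n)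
    (hy : y ∈ tors N n) : weil n (σ • x) (σ • y) = σ (weil n x y) := by
  have := isFF1 N
  have := nonConst N
  exact weil_smul hn (gal N σ) (zsmul_of_mem_tors hx) (zsmul_of_mem_tors hy)

theorem weil_tors_pow {n : ℕ} (hn : 0 < n) {x y : JZero N} (hx : x ∈ tors N n)
    (hy : y ∈ tors N n) : weil n x y ^ n = 1 :=
  (isBimul_tors N hn).pow_eq_one hx hy hx

theorem finite_tors' {n : ℕ} (hn : 0 < n) : Finite (tors N n) := by
  have h := finite_tors N n hn
  refine Finite.of_injective (fun x : tors N n => (⟨x.1, Pic0.mem_torsion.2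
    (zsmul_of_mem_tors x.2)⟩ : Tors N n)) fun x y hxy => ?_
  exact Subtype.ext (congrArg Subtype.val hxy)

theorem finite_eis {r : ℕ} (hr : 0 < r) : Finite (Eis N r) := by
  have := finite_tors' N hr
  exact Finite.of_injective (AddSubgroup.inclusion (eis_le_tors N r))
    (AddSubgroup.inclusion_injective _)

/-- If `σ` acts on `μ_n` as the `k`-th power then `e_n (σ x) (σ y) = e_n x y ^ k`. -/
theorem weil_gal_pow {n : ℕ} (hn : 0 < n) (σ : GQ) (k : ℕ) (hσ : ActsOnMu n σ k) {x y : JZero N}
    (hx : x ∈ tors N n) (hy : y ∈ tors N n) : weil n (σ • x) (σ • y) = weil n x y ^ k := by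
  rw [weil_gal N hn σ hx hy, hσ _ (weil_tors_pow N hn hx hy)]

end Fermat.Agent.S15.Pair

end
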