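/-
S15 block Pair (owner helper75), P1 (MATHLIB ONLY): an isotropic subgroup `X` of a finite group `G`
with a nondegenerate bimultiplicative pairing satisfies `#X ^ 2 ≤ #G`.

PROOF of `card_sq_le`.  Work with `H = Multiplicative G`.  For `x ∈ X` let `ψ x : H →* Ω`,
`ψ x g = e x g` (`IsBimul.zero_right`, `add_right`).  Let `P : Subgroup H` be the common kernel of the
`ψ x`, `x ∈ X` (`= X^⊥`), `Q = H ⧸ P`.  `ψ x` factors as `φ x : Q →* Ω` (`QuotientGroup.lift`), and
`x ↦ φ x` is injective on `X`: if `φ x = φ x'` then `e (x - x') g = 1` for all `g ∈ G`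
(`IsBimul.sub_left`), so `x = x'` by `Nondeg`.  By Dedekind (`linearIndependent_monoidHom`) the
`φ x` are linearly independent in `Q → Ω`, hence `#X ≤ dim (Q → Ω) = #Q`
(`LinearIndependent.fintype_card_le_finrank`, `Module.finrank_fintype_fun_eq_card`).
`X` isotropic gives an injection `X → P`, so `#X ≤ #P`, and `#G = #Q * #P`
(`Subgroup.card_eq_card_quotient_mul_card_subgroup`).
-/
import Fermat.Agent.S15.Pair.Defs

set_option autoImplicit false

namespace Fermat.Agent.S15.Pair

variable {J Ω : Type*} [AddCommGroup J] [Field Ω]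

/-- Dedekind: a finite group has at most `#Q` characters with values in a field. -/
theorem card_le_of_injective_monoidHom {Q ι : Type*} [Monoid Q] [Finite Q] (φ : ι → (Q →* Ω))
    (hφ : Function.Injective φ) : Finite ι ∧ Nat.card ι ≤ Nat.card Q := by
  classical
  have hli : LinearIndependent Ω (fun i => (φ i : Q → Ω)) :=
    (linearIndependent_monoidHom Q Ω).comp φ hφ
  have : Fintype Q := Fintype.ofFinite Q
  have hfin : Finite ι := hli.finite
  have : Fintype ι := Fintype.ofFinite ι
  refine ⟨hfin, ?_⟩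
  have h1 := hli.fintype_card_le_finrank
  rw [Module.finrank_fintype_fun_eq_card] at h1
  rwa [Nat.card_eq_fintype_card, Nat.card_eq_fintype_card]

/-- **P1** -/
theorem card_sq_le {G X : AddSubgroup J} {e : J → J → Ω} [Finite G] (h : IsBimul G e)
    (hnd : Nondeg G e) (hX : X ≤ G) (hiso : Isotropic (X : Set J) e) :
    Nat.card X ^ 2 ≤ Nat.card G := by
  classical
  let ψ : X → (Multiplicative G →* Ω) := fun x =>
    { toFun := fun g => e x ((Multiplicative.toAdd g : G) : J)
      map_one' := h.zero_right (hX x.2)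
      map_mul' := fun a b =>
        h.add_right _ (hX x.2) _ (Multiplicative.toAdd a).2 _ (Multiplicative.toAdd b).2 }
  let P : Subgroup (Multiplicative G) := ⨅ x : X, (ψ x).ker
  have hP : ∀ x, P ≤ (ψ x).ker := fun x => iInf_le _ x
  let φ : X → ((Multiplicative G ⧸ P) →* Ω) := fun x => QuotientGroup.lift P (ψ x) (hP x)
  have hφ : Function.Injective φ := by
    intro x x' hxx
    have h0 : ∀ g ∈ G, e ((x : J) - x') g = 1 := by
      intro g hg
      have h1 : e x g = e x' g :=
        congrArg (fun f : (Multiplicative G ⧸ P) →* Ω =>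
          f (QuotientGroup.mk (Multiplicative.ofAdd (⟨g, hg⟩ : G)))) hxx
      rw [h.sub_left (hX x.2) (hX x'.2) hg, h1, div_self (h.ne_zero _ (hX x'.2) _ hg)]
    exact Subtype.ext (sub_eq_zero.1 (hnd _ (G.sub_mem (hX x.2) (hX x'.2)) h0))
  obtain ⟨-, h1⟩ := card_le_of_injective_monoidHom φ hφ
  have h2 : Nat.card X ≤ Nat.card P := by
    have hmem : ∀ y : X, Multiplicative.ofAdd (⟨y, hX y.2⟩ : G) ∈ P := by
      intro y
      rw [Subgroup.mem_iInf]
      intro x
      exact hiso x x.2 y y.2
    refine Nat.card_le_card_of_injective (fun y : X => (⟨_, hmem y⟩ : P)) ?_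
    intro y y' hyy
    have h3 : Multiplicative.ofAdd (⟨y, hX y.2⟩ : G) = Multiplicative.ofAdd (⟨y', hX y'.2⟩ : G) :=
      congrArg Subtype.val hyy
    have h4 : (⟨y, hX y.2⟩ : G) = ⟨y', hX y'.2⟩ := Multiplicative.ofAdd.injective h3
    exact Subtype.ext (congrArg (fun z : G => (z : J)) h4)
  have h3 : Nat.card G = Nat.card (Multiplicative G ⧸ P) * Nat.card P :=
    Subgroup.card_eq_card_quotient_mul_card_subgroup P
  rw [pow_two, h3]
  exact Nat.mul_le_mul h1 h2

/-- the form used in the Selmer bound -/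
theorem card_mul_card_le {G X Y : AddSubgroup J} {e : J → J → Ω} [Finite G] (h : IsBimul G e)
    (hnd : Nondeg G e) (hX : X ≤ G) (hY : Y ≤ G) (hisoX : Isotropic (X : Set J) e)
    (hisoY : Isotropic (Y : Set J) e) : Nat.card X * Nat.card Y ≤ Nat.card G := by
  have h1 := card_sq_le h hnd hX hisoX
  have h2 := card_sq_le h hnd hY hisoY
  have h3 : (Nat.card X * Nat.card Y) ^ 2 ≤ Nat.card G ^ 2 := by
    rw [mul_pow, pow_two (Nat.card G)]
    exact Nat.mul_le_mul h1 h2
  exact (Nat.pow_le_pow_iff_left (by norm_num)).1 h3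

/-- the subgroup generated by an isotropic subset of `G` is isotropic -/
theorem isotropic_closure {G : AddSubgroup J} {e : J → J → Ω} (h : IsBimul G e) {S : Set J}
    (hS : S ⊆ G) (hiso : Isotropic S e) : Isotropic (AddSubgroup.closure S : Set J) e := by
  have hle : AddSubgroup.closure S ≤ G := (AddSubgroup.closure_le G).2 hS
  have h1 : ∀ x ∈ S, ∀ y ∈ AddSubgroup.closure S, e x y = 1 := by
    intro x hx y hy
    induction hy using AddSubgroup.closure_induction with
    | mem y hy => exact hiso x hx y hy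
    | zero => exact h.zero_right (hS hx)
    | add y y' hy hy' ih ih' =>
      rw [h.add_right _ (hS hx) _ (hle hy) _ (hle hy'), ih, ih', one_mul]
    | neg y hy ih => rw [h.neg_right (hS hx) (hle hy), ih, inv_one]
  have h2 : ∀ y ∈ AddSubgroup.closure S, ∀ x ∈ AddSubgroup.closure S, e x y = 1 := by
    intro y hy x hx
    induction hx using AddSubgroup.closure_induction with
    | mem x hx => exact h1 x hx y hy
    | zero => exact h.zero_left (hle hy)
    | add x x' hx hx' ih ih' =>
      rw [h.add_left _ (hle hx) _ (hle hx') _ (hle hy), ih, ih', one_mul]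
    | neg x hx ih => rw [h.neg_left (hle hx) (hle hy), ih, inv_one]
  exact fun x hx y hy => h2 y hy x hx

end Fermat.Agent.S15.Pair
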