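/-
S15 block Pair (owner helper75), P3 (MATHLIB ONLY): if `e (s x) (s y) = e x y ^ k` and
`r ∤ k (k - 1)`, then the generalised eigenspace of `s` for the eigenvalue `k` in a group `G` killed by
`r` is isotropic.

PROOF of `eq_one_of_iterate`.  Induction on `n + m` (or on `n`, then `m`).  If `n = 0` then `x = 0`
(`IsBimul.zero_left`), if `m = 0` then `y = 0`.  Otherwise put `u z = s z - k • z`; `u` maps `G` to `G`;
`s x = k • x + u x`, `s y = k • y + u y`, and `u x` (resp. `u y`) is killed by `u^[n-1]` (resp. `u^[m-1]`)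
(`Function.iterate_succ_apply`).  By bimultiplicativity
`e x y ^ k = e (s x) (s y) = e x y ^ (k * k) * e x (u y) ^ k * e (u x) y ^ k * e (u x) (u y)`
and the last three factors are `1` by induction.  So `w = e x y` satisfies `w ^ (k * k) = w ^ k`, `w ≠ 0`,
`w ^ r = 1` (`IsBimul.pow_eq_one`), so `w ^ (k * (k - 1)) = 1` and, `r` being prime to `k * (k - 1)`,
`w = 1` (`pow_gcd_eq_one` / `Nat.Coprime`).
-/
import Fermat.Agent.S15.Pair.Defs

set_option autoImplicit false

namespace Fermat.Agent.S15.Pair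

variable {J Ω : Type*} [AddCommGroup J] [Field Ω]

/-- **P3** -/
theorem eq_one_of_iterate {G : AddSubgroup J} {e : J → J → Ω} (h : IsBimul G e) {r : ℕ}
    (hr : r.Prime) (hG : ∀ g ∈ G, r • g = 0) (s : J → J) (hs : ∀ g ∈ G, s g ∈ G) (k : ℕ)
    (hk : ¬ r ∣ k) (hk1 : ¬ (r : ℤ) ∣ (k : ℤ) - 1)
    (hequiv : ∀ x ∈ G, ∀ y ∈ G, e (s x) (s y) = e x y ^ k) (n m : ℕ) :
    ∀ x ∈ G, ∀ y ∈ G, (fun z : J => s z - k • z)^[n] x = 0 → (fun z : J => s z - k • z)^[m] y = 0 →
      e x y = 1 := by
  have huG : ∀ g ∈ G, (fun z : J => s z - k • z) g ∈ G :=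
    fun g hg => G.sub_mem (hs g hg) (G.nsmul_mem hg k)
  generalize hu : (fun z : J => s z - k • z) = u at huG ⊢
  have hsu : ∀ z, s z = k • z + u z := by
    intro z
    rw [← hu]
    simp
  have key : ∀ N n m : ℕ, n + m ≤ N → ∀ x ∈ G, ∀ y ∈ G, u^[n] x = 0 → u^[m] y = 0 →
      e x y = 1 := by
    intro N
    induction N with
    | zero =>
      intro n m hnm x hx y hy hxn _
      obtain rfl : n = 0 := by omega
      rw [Function.iterate_zero, id] at hxn
      rw [hxn]
      exact h.zero_left hy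
    | succ N ih =>
      intro n m hnm x hx y hy hxn hym
      rcases n with _ | n
      · rw [Function.iterate_zero, id] at hxn
        rw [hxn]
        exact h.zero_left hy
      rcases m with _ | m
      · rw [Function.iterate_zero, id] at hym
        rw [hym]
        exact h.zero_right hx
      have hxn' := hxn
      have hym' := hym
      rw [Function.iterate_succ_apply] at hxn' hym'
      have h1 : e x (u y) = 1 := ih (n + 1) m (by omega) x hx (u y) (huG y hy) hxn hym'
      have h2 : e (u x) y = 1 := ih n (m + 1) (by omega) (u x) (huG x hx) y hy hxn' hym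
      have h3 : e (u x) (u y) = 1 := ih n m (by omega) (u x) (huG x hx) (u y) (huG y hy) hxn' hym'
      have h4 := hequiv x hx y hy
      have hkx : k • x ∈ G := G.nsmul_mem hx k
      have hky : k • y ∈ G := G.nsmul_mem hy k
      rw [hsu x, hsu y, h.add_left _ hkx _ (huG x hx) _ (G.add_mem hky (huG y hy)),
        h.add_right _ hkx _ hky _ (huG y hy), h.add_right _ (huG x hx) _ hky _ (huG y hy),
        h.nsmul_left hx hky, h.nsmul_right hx hy, h.nsmul_left hx (huG y hy),
        h.nsmul_right (huG x hx) hy, h1, h2, h3] at h4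
      simp only [one_pow, mul_one] at h4
      have hw0 : e x y ≠ 0 := h.ne_zero x hx y hy
      have hwr : e x y ^ r = 1 := h.pow_eq_one hx hy (hG x hx)
      have hk0 : 0 < k := by
        rcases Nat.eq_zero_or_pos k with h0 | h0
        · exact absurd (h0 ▸ dvd_zero r) hk
        · exact h0
      obtain ⟨t, rfl⟩ : ∃ t, k = t + 1 := ⟨k - 1, by omega⟩
      have hw1 : e x y ^ ((t + 1) * t) = 1 := by
        have h5 : e x y ^ (t + 1) * e x y ^ ((t + 1) * t) = e x y ^ (t + 1) := by
          conv_rhs => rw [← h4]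
          rw [← pow_mul, ← pow_add]
          congr 1
          ring
        exact (mul_eq_left₀ (pow_ne_zero _ hw0)).1 h5
      have ht : ¬ r ∣ t := by
        intro hd
        apply hk1
        have : ((t + 1 : ℕ) : ℤ) - 1 = (t : ℤ) := by push_cast; ring
        rw [this]
        exact Int.natCast_dvd_natCast.2 hd
      have hcop : Nat.Coprime r ((t + 1) * t) :=
        Nat.Coprime.mul_right ((Nat.Prime.coprime_iff_not_dvd hr).2 hk)
          ((Nat.Prime.coprime_iff_not_dvd hr).2 ht)
      have h6 := pow_gcd_eq_one.2 ⟨hwr, hw1⟩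
      rw [Nat.Coprime.gcd_eq_one hcop, pow_one] at h6
      exact h6
  exact key (n + m) n m le_rfl

/-- **P3**, for a subgroup -/
theorem isotropic_of_iterate {G X : AddSubgroup J} {e : J → J → Ω} (h : IsBimul G e) {r : ℕ}
    (hr : r.Prime) (hG : ∀ g ∈ G, r • g = 0) (s : J → J) (hs : ∀ g ∈ G, s g ∈ G) (k : ℕ)
    (hk : ¬ r ∣ k) (hk1 : ¬ (r : ℤ) ∣ (k : ℤ) - 1)
    (hequiv : ∀ x ∈ G, ∀ y ∈ G, e (s x) (s y) = e x y ^ k) (hX : X ≤ G) (n : ℕ)
    (hn : ∀ x ∈ X, (fun z : J => s z - k • z)^[n] x = 0) : Isotropic (X : Set J) e :=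
  fun x hx y hy => eq_one_of_iterate h hr hG s hs k hk hk1 hequiv n n x (hX hx) y (hX hy)
    (hn x hx) (hn y hy)

end Fermat.Agent.S15.Pair
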