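/-
S15 block Pair (owner helper75): the deliverables.

* `selfAdj_Tp`, `selfAdj_TT` : the Hecke operators are self-adjoint for the Weil pairing on `J₀(N)[r]`
  (from the contracts `EichlerShimuraTors`, `HeckeCommTors`);
* `nondeg_eis` : the Weil pairing is nondegenerate on `Eis N r` (given the Eisenstein projector);
* `isotropic_eigen` : P3, the generalised eigenspace of `σ₀` for the eigenvalue `χ(σ₀) ≠ 1` is isotropic;
* `card_mul_card_le_eis` : `#X * #Y ≤ #Eis N r` for isotropic `X, Y ≤ Eis N r`.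
-/
import Fermat.Agent.S15.Pair.JZero
import Fermat.Agent.S15.Pair.Card
import Fermat.Agent.S15.Pair.Eigen
import Fermat.Agent.S15.Pair.Adjoint
import Fermat.Agent.S58.Zeta

set_option autoImplicit false

noncomputable section

namespace Fermat.Agent.S15.Pair

open ModularCurve AlgebraicCurve Fermat.Agent.S24 Fermat.Agent.S19.Weil

variable (N : ℕ) [NeZero N]

/-- **P2**: `T_p` is self-adjoint for the Weil pairing on `J₀(N)[r]`, `p ∤ N r`. -/
theorem selfAdj_Tp {r : ℕ} (hr : 0 < r) (hES : EichlerShimuraTors N r) {p : ℕ} (hp : p.Prime)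
    (hpN : ¬ p ∣ N * r) : SelfAdj (tors N r) (weil r) (Tp N p) := by
  obtain ⟨A, φ, hA, hφ⟩ := Fermat.Agent.S58.exists_place p hp
  have hpr : ¬ p ∣ r := fun h => hpN (h.mul_left N)
  exact adjoint_of_eichlerShimura (Γ := GQ) (isBimul_tors N hr) φ
    (fun x hx => smul_mem_tors φ hx) (fun x hx => smul_mem_tors φ⁻¹ hx) (Tp N p) p
    (fun x hx => hES p hp hpN A hA φ hφ x hx)
    (fun x hx y hy => weil_gal_pow N hr φ p
      (fun ζ hζ => Fermat.Agent.S58.frob_zeta hp A hA φ hφ hpr ζ hζ) hx hy)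

/-- **P2**: every `t ∈ TT N (N r)` is self-adjoint on `J₀(N)[r]`, and `TT N (N r)` acts commutatively
on `J₀(N)[r]`. -/
theorem selfAdj_TT {r : ℕ} (hr : 0 < r) (hES : EichlerShimuraTors N r) (hC : HeckeCommTors N r) :
    ∀ t ∈ TT N (N * r), SelfAdj (tors N r) (weil r) t ∧
      ∀ t' ∈ TT N (N * r), ∀ x ∈ tors N r, t (t' x) = t' (t x) := by
  intro t ht
  have h := adjoint_closure (isBimul_tors N hr)
    {t | ∃ p : ℕ, p.Prime ∧ ¬ p ∣ N * r ∧ t = Tp N p}
    (fun s _ x hx => end_mem_tors s hx)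
    (by
      rintro s ⟨p, hp, hpN, rfl⟩ s' ⟨q, hq, hqN, rfl⟩ x hx
      exact hC p q hp hq (fun h => hpN (h.mul_right r)) (fun h => hqN (h.mul_right r)) x hx)
    (by
      rintro s ⟨p, hp, hpN, rfl⟩
      exact selfAdj_Tp N hr hES hp hpN) t ht
  exact h.2

theorem isBimul_eis {r : ℕ} (hr : 0 < r) : IsBimul (Eis N r) (weil r) :=
  (isBimul_tors N hr).mono (eis_le_tors N r)

/-- **P2**: the Weil pairing is nondegenerate on the Eisenstein part. -/
theorem nondeg_eis {r : ℕ} (hr : 0 < r) (hES : EichlerShimuraTors N r) (hC : HeckeCommTors N r)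
    (eps : AddMonoid.End (JZero N)) (heps : eps ∈ TT N (N * r))
    (h1 : ∀ x : JZero N, r • x = 0 → eps x ∈ Eis N r) (h2 : ∀ x ∈ Eis N r, eps x = x) :
    Nondeg (Eis N r) (weil r) :=
  nondeg_of_idempotent (nondeg_tors N hr) (eis_le_tors N r) eps h1 h2
    (selfAdj_TT N hr hES hC eps heps).1

theorem actsOnMu_of_primitiveRoot {r : ℕ} {ζ : Kbar} (hζ : IsPrimitiveRoot ζ r) (hr : 0 < r)
    (σ : GQ) (k : ℕ) (h : σ ζ = ζ ^ k) : ActsOnMu r σ k := by
  intro ξ hξ
  haveI : NeZero r := ⟨hr.ne'⟩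
  obtain ⟨i, -, rfl⟩ := hζ.eq_pow_of_pow_eq_one hξ
  rw [map_pow, h, ← pow_mul, ← pow_mul, mul_comm]

/-- **P3**: the shape of `SelData.typ`. -/
theorem isotropic_eigen {r : ℕ} (hr : r.Prime) {ζ : Kbar} (hζ : IsPrimitiveRoot ζ r) (σ₀ : GQ)
    (k n : ℕ) (h1 : σ₀ ζ = ζ ^ k) (h2 : ζ ^ k ≠ ζ) {X : AddSubgroup (JZero N)}
    (hX : X ≤ tors N r) (hn : ∀ g ∈ X, (fun x : JZero N => σ₀ • x - k • x)^[n] g = 0) :
    Isotropic (X : Set (JZero N)) (weil r) := by
  have hk : ¬ r ∣ k := by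
    intro hd
    have h3 : ζ ^ k = 1 := (hζ.pow_eq_one_iff_dvd k).2 hd
    rw [h3] at h1
    have h4 : ζ = 1 := by
      have := σ₀.injective (h1.trans (map_one σ₀).symm)
      exact this
    exact hr.one_lt.ne' (hζ.unique (h4 ▸ IsPrimitiveRoot.one)).symm.symm
  have hk1 : ¬ (r : ℤ) ∣ (k : ℤ) - 1 := by
    intro hd
    apply h2
    obtain ⟨j, hj⟩ := hd
    have hζ0 : ζ ≠ 0 := hζ.ne_zero hr.ne_zero
    have h3 : (k : ℤ) = (r : ℤ) * j + 1 := by rw [← hj]; ring
    rw [← zpow_natCast, h3, zpow_add₀ hζ0, zpow_mul, zpow_natCast, hζ.pow_eq_one, one_zpow, one_mul,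
      zpow_one]
  exact isotropic_of_iterate (isBimul_tors N hr.pos) hr (fun g hg => hg) (fun z => σ₀ • z)
    (fun g hg => smul_mem_tors σ₀ hg) k hk hk1
    (fun x hx y hy => weil_gal_pow N hr.pos σ₀ k (actsOnMu_of_primitiveRoot hζ hr.pos σ₀ k h1) hx hy)
    hX n hn

/-- **P1** on the Eisenstein part: the inequality which closes the Selmer bound. -/
theorem card_mul_card_le_eis {r : ℕ} (hr : 0 < r) (hES : EichlerShimuraTors N r)
    (hC : HeckeCommTors N r) (eps : AddMonoid.End (JZero N)) (heps : eps ∈ TT N (N * r))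
    (h1 : ∀ x : JZero N, r • x = 0 → eps x ∈ Eis N r) (h2 : ∀ x ∈ Eis N r, eps x = x)
    {X Y : AddSubgroup (JZero N)} (hX : X ≤ Eis N r) (hY : Y ≤ Eis N r)
    (hisoX : Isotropic (X : Set (JZero N)) (weil r))
    (hisoY : Isotropic (Y : Set (JZero N)) (weil r)) :
    Nat.card X * Nat.card Y ≤ Nat.card (Eis N r) := by
  have := finite_eis N hr
  exact card_mul_card_le (isBimul_eis N hr) (nondeg_eis N hr hES hC eps heps h1 h2) hX hY hisoX
    hisoY

end Fermat.Agent.S15.Pair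

end
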