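/-
S15 block Pair (owner helper75), MATHLIB ONLY: a right-nondegenerate bimultiplicative pairing on a finite
group `G` represents every character of `G`.
-/
import Fermat.Agent.S15.Pair.Card

set_option autoImplicit false

namespace Fermat.Agent.S15.Pair

variable {J Ω : Type*} [AddCommGroup J] [Field Ω]

/-- every character of `G` is `e (·, w)` -/
theorem exists_repr {G : AddSubgroup J} {e : J → J → Ω} [Finite G] (h : IsBimul G e)
    (hnd : ∀ y ∈ G, (∀ x ∈ G, e x y = 1) → y = 0) (lam : J → Ω)
    (hlam : ∀ x ∈ G, ∀ y ∈ G, lam (x + y) = lam x * lam y) (hlam0 : ∀ x ∈ G, lam x ≠ 0) :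
    ∃ w ∈ G, ∀ x ∈ G, lam x = e x w := by
  classical
  by_contra hne
  push Not at hne
  have hl0 : lam 0 = 1 := by
    have h1 := hlam 0 G.zero_mem 0 G.zero_mem
    rw [add_zero] at h1
    exact (mul_eq_left₀ (hlam0 0 G.zero_mem)).1 h1.symm
  let L : Multiplicative G →* Ω :=
    { toFun := fun g => lam ((Multiplicative.toAdd g : G) : J)
      map_one' := hl0
      map_mul' := fun a b => hlam _ (Multiplicative.toAdd a).2 _ (Multiplicative.toAdd b).2 }
  let Φ : G → (Multiplicative G →* Ω) := fun w =>
    { toFun := fun g => e ((Multiplicative.toAdd g : G) : J) w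
      map_one' := h.zero_left w.2
      map_mul' := fun a b =>
        h.add_left _ (Multiplicative.toAdd a).2 _ (Multiplicative.toAdd b).2 _ w.2 }
  let Ψ : Option G → (Multiplicative G →* Ω) := fun o => o.elim L Φ
  have hΦ : Function.Injective Φ := by
    intro w w' hww
    have h0 : ∀ x ∈ G, e x ((w : J) - w') = 1 := by
      intro x hx
      have h1 : e x w = e x w' :=
        congrArg (fun f : Multiplicative G →* Ω => f (Multiplicative.ofAdd (⟨x, hx⟩ : G))) hww
      rw [h.sub_right hx w.2 w'.2, h1, div_self (h.ne_zero _ hx _ w'.2)]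
    exact Subtype.ext (sub_eq_zero.1 (hnd _ (G.sub_mem w.2 w'.2) h0))
  have hL : ∀ w : G, L ≠ Φ w := by
    intro w hw
    obtain ⟨x, hx, hxw⟩ := hne w w.2
    exact hxw (congrArg (fun f : Multiplicative G →* Ω => f (Multiplicative.ofAdd (⟨x, hx⟩ : G))) hw)
  have hΨ : Function.Injective Ψ := by
    rintro (_ | w) (_ | w') hww
    · rfl
    · exact absurd hww (hL w')
    · exact absurd hww.symm (hL w)
    · exact congrArg some (hΦ hww)
  obtain ⟨-, h1⟩ := card_le_of_injective_monoidHom Ψ hΨ
  rw [Finite.card_option, Nat.card_congr Multiplicative.toAdd] at h1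
  omega

end Fermat.Agent.S15.Pair
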