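/-
S15 block Pair (owner helper75): the contracts of `S15/Abstract.lean` (chief helper299), LITERALLY, and the
`Sel.PairData` consumed by `Sel.selmer_bound` (helper67).
-/
import Fermat.Agent.S15.Abstract
import Fermat.Agent.S15.Sel.SB.Defs
import Fermat.Agent.S15.Pair.Main
import Fermat.Agent.S15.Pair.Repr

set_option autoImplicit false

noncomputable section

namespace Fermat.Agent.S15.Pair

open ModularCurve AlgebraicCurve Fermat.Agent.S24 Fermat.Agent.S19.Weil

/-- **PAIR-2** -/
theorem isotropicBound : IsotropicBound := by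
  intro J _ G X e hfin hX hl hr h0 hnd hiso
  have : Finite G := hfin
  have h := card_sq_le (G := G) (X := X) (e := e) ⟨h0, hl, hr⟩
    (fun x hx hxy => by
      by_contra hx0
      obtain ⟨y, hy, hy1⟩ := hnd x hx hx0
      exact hy1 (hxy y hy)) hX hiso
  rwa [pow_two] at h

/-- **PAIR-3** -/
theorem charIsPairing : CharIsPairing := by
  intro J _ G e r hr hfin _ hl hr' h0 hnd lam hlam
  have : Finite G := hfin
  refine exists_repr (G := G) (e := e) ⟨h0, hl, hr'⟩
    (fun y hy hxy => by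
      by_contra hy0
      obtain ⟨x, hx, hx1⟩ := hnd y hy hy0
      exact hx1 (hxy x hx)) lam hlam.1 fun x hx hx0 => ?_
  have h1 := hlam.2 x hx
  rw [hx0, zero_pow hr.ne'] at h1
  exact zero_ne_one h1

/-- **PAIR-4** -/
theorem eigenIsotropic : EigenIsotropic := by
  intro J _ _ G e r hr hG hst hl hr' h0 hequiv ζ hζ σ₀ k n h1 h2 x hx y hy hxn hyn
  have hB : IsBimul G e := ⟨h0, hl, hr'⟩
  have hk : ¬ r ∣ k := by
    intro hd
    have h3 : ζ ^ k = 1 := (hζ.pow_eq_one_iff_dvd k).2 hd
    rw [h3] at h1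
    have h4 : ζ = 1 := σ₀.injective (h1.trans (map_one σ₀).symm)
    exact hr.one_lt.ne' (hζ.unique (h4 ▸ IsPrimitiveRoot.one))
  have hk1 : ¬ (r : ℤ) ∣ (k : ℤ) - 1 := by
    intro hd
    apply h2
    obtain ⟨j, hj⟩ := hd
    have hζ0 : ζ ≠ 0 := hζ.ne_zero hr.ne_zero
    have h3 : (k : ℤ) = (r : ℤ) * j + 1 := by rw [← hj]; ring
    rw [← zpow_natCast, h3, zpow_add₀ hζ0, zpow_mul, zpow_natCast, hζ.pow_eq_one, one_zpow, one_mul,
      zpow_one]
  exact eq_one_of_iterate hB hr hG (fun z => σ₀ • z) (fun g hg => hst σ₀ g hg) k hk hk1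
    (fun x hx y hy => by
      rw [hequiv σ₀ x hx y hy]
      exact actsOnMu_of_primitiveRoot hζ hr.pos σ₀ k h1 _ (hB.pow_eq_one hx hy (hG x hx)))
    n n x hx y hy hxn hyn

variable (N : ℕ) [NeZero N]

/-- **PAIR-1** -/
theorem weilNondegEis {r : ℕ} (hr : 0 < r) (hES : EichlerShimuraTors N r)
    (hC : HeckeCommTors N r) (hE : EpsExists N r) : WeilNondegEis N r := by
  obtain ⟨eps, heps, h1, h2⟩ := hE
  intro x hx hx0
  by_contra hne
  push Not at hne
  exact hx0 (nondeg_eis N hr hES hC eps heps h1 h2 x hx hne)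

/-- The Eisenstein part is Galois stable. -/
theorem smul_mem_eis (hG : HeckeGalois N) {r : ℕ} (σ : GQ) {x : JZero N} (hx : x ∈ Eis N r) :
    σ • x ∈ Eis N r := by
  refine ⟨smul_mem_tors σ hx.1, fun p hp hpN => ?_⟩
  obtain ⟨k, hk⟩ := hx.2 p hp hpN
  refine ⟨k, ?_⟩
  have hcomm : ∀ (j : ℕ) (z : JZero N),
      ((Tp N p - ((1 + p : ℕ) : AddMonoid.End (JZero N))) ^ j) (σ • z) =
        σ • ((Tp N p - ((1 + p : ℕ) : AddMonoid.End (JZero N))) ^ j) z := by
    intro j
    induction j with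
    | zero => intro z; rfl
    | succ j ih =>
      intro z
      rw [pow_succ, end_mul_apply, end_mul_apply, ← ih]
      congr 1
      have e1 : ∀ w : JZero N, (Tp N p - ((1 + p : ℕ) : AddMonoid.End (JZero N))) w =
          Tp N p w - (1 + p) • w := by
        intro w
        show Tp N p w - ((1 + p : ℕ) : AddMonoid.End (JZero N)) w = _
        rw [AddMonoid.End.natCast_apply]
      rw [e1, e1, hG p hp (fun h => hpN (h.mul_right r)), smul_sub]
      congr 1
      exact ((DistribSMul.toAddMonoidHom (JZero N) σ).map_nsmul (1 + p) z).symm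
  rw [hcomm, hk]
  exact (DistribSMul.toAddMonoidHom (JZero N) σ).map_zero

/-- The datum consumed by `Sel.selmer_bound`. -/
theorem pairData_eis {r : ℕ} (hr : 0 < r) (hES : EichlerShimuraTors N r)
    (hC : HeckeCommTors N r) (hE : EpsExists N r) : Sel.PairData r (Eis N r) (weil r) := by
  obtain ⟨eps, heps, h1, h2⟩ := hE
  have hB := isBimul_eis N hr
  have hnd := nondeg_eis N hr hES hC eps heps h1 h2
  have := Fermat.Agent.S19.Glue.isFF1 N
  have := Fermat.Agent.S19.Glue.nonConst N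
  refine ⟨hB.add_left, hB.add_right, fun x hx y hy => hB.pow_eq_one hx hy hx.1, hnd, ?_, ?_⟩
  · intro y hy hxy
    refine hnd y hy fun x hx => ?_
    rw [weil_swap hr (zsmul_of_mem_tors (eis_le_tors N r hx))
      (zsmul_of_mem_tors (eis_le_tors N r hy)), hxy x hx, inv_one]
  · intro σ x hx y hy
    exact weil_gal N hr σ (eis_le_tors N r hx) (eis_le_tors N r hy)

end Fermat.Agent.S15.Pair

end
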