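/-
S15 block Pair (owner helper75): API of the Weil pairing on `JZero N`, with `ℕ`-smul hypotheses
(`n • x = 0`), as asked by the chief (RULING 3).  Namespace `Fermat.Agent.S15.Pair.WeilJ`.
-/
import Fermat.Agent.S15.Pair.JZero

set_option autoImplicit false

noncomputable section

namespace Fermat.Agent.S15.Pair.WeilJ

open ModularCurve AlgebraicCurve Fermat.Agent.S24 Fermat.Agent.S19.Weil Fermat.Agent.S19.Glue

variable (N : ℕ) [NeZero N] {n : ℕ}

theorem ne_zero (hn : 0 < n) (x y : JZero N) : weil n x y ≠ 0 := by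
  have := isFF1 N
  have := nonConst N
  exact weil_ne_zero hn x y

variable {x x' y y' : JZero N}

theorem add_left (hn : 0 < n) (hx : n • x = 0) (hx' : n • x' = 0) (hy : n • y = 0) :
    weil n (x + x') y = weil n x y * weil n x' y :=
  (isBimul_tors N hn).add_left x hx x' hx' y hy

theorem add_right (hn : 0 < n) (hx : n • x = 0) (hy : n • y = 0) (hy' : n • y' = 0) :
    weil n x (y + y') = weil n x y * weil n x y' :=
  (isBimul_tors N hn).add_right x hx y hy y' hy'

theorem swap (hn : 0 < n) (hx : n • x = 0) (hy : n • y = 0) : weil n y x = (weil n x y)⁻¹ := by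
  have := isFF1 N
  have := nonConst N
  exact weil_swap hn (zsmul_of_mem_tors hx) (zsmul_of_mem_tors hy)

theorem zero_left (hn : 0 < n) (hy : n • y = 0) : weil n 0 y = 1 :=
  (isBimul_tors N hn).zero_left hy

theorem zero_right (hn : 0 < n) (hx : n • x = 0) : weil n x 0 = 1 :=
  (isBimul_tors N hn).zero_right hx

theorem neg_left (hn : 0 < n) (hx : n • x = 0) (hy : n • y = 0) :
    weil n (-x) y = (weil n x y)⁻¹ :=
  (isBimul_tors N hn).neg_left hx hy

theorem neg_right (hn : 0 < n) (hx : n • x = 0) (hy : n • y = 0) :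
    weil n x (-y) = (weil n x y)⁻¹ :=
  (isBimul_tors N hn).neg_right hx hy

theorem sub_left (hn : 0 < n) (hx : n • x = 0) (hx' : n • x' = 0) (hy : n • y = 0) :
    weil n (x - x') y = weil n x y / weil n x' y :=
  (isBimul_tors N hn).sub_left hx hx' hy

theorem sub_right (hn : 0 < n) (hx : n • x = 0) (hy : n • y = 0) (hy' : n • y' = 0) :
    weil n x (y - y') = weil n x y / weil n x y' :=
  (isBimul_tors N hn).sub_right hx hy hy'

theorem nsmul_left (hn : 0 < n) (hx : n • x = 0) (hy : n • y = 0) (k : ℕ) :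
    weil n (k • x) y = weil n x y ^ k :=
  (isBimul_tors N hn).nsmul_left hx hy k

theorem nsmul_right (hn : 0 < n) (hx : n • x = 0) (hy : n • y = 0) (k : ℕ) :
    weil n x (k • y) = weil n x y ^ k :=
  (isBimul_tors N hn).nsmul_right hx hy k

theorem pow_eq_one (hn : 0 < n) (hx : n • x = 0) (hy : n • y = 0) : weil n x y ^ n = 1 :=
  weil_tors_pow N hn hx hy

theorem gal (hn : 0 < n) (σ : GQ) (hx : n • x = 0) (hy : n • y = 0) :
    weil n (σ • x) (σ • y) = σ (weil n x y) :=
  weil_gal N hn σ hx hy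

theorem nondeg (hn : 0 < n) (hx : n • x = 0) (hx0 : x ≠ 0) :
    ∃ y : JZero N, n • y = 0 ∧ weil n x y ≠ 1 := by
  by_contra hne
  push Not at hne
  exact hx0 (nondeg_tors N hn x hx hne)

/-- change of level -/
theorem mul_left {m : ℕ} (hn : 0 < n) (hm : 0 < m) (hx : (n * m) • x = 0) (hy : n • y = 0) :
    weil (n * m) x y = weil n (m • x) y := by
  have := isFF1 N
  have := nonConst N
  rw [← natCast_zsmul x m]
  exact weil_mul_left hn hm (zsmul_of_mem_tors hx) (zsmul_of_mem_tors hy)

theorem mul_pow {m : ℕ} (hn : 0 < n) (hm : 0 < m) (hx : (n * m) • x = 0)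
    (hy : (n * m) • y = 0) : weil n (m • x) (m • y) = weil (n * m) x y ^ m := by
  have := isFF1 N
  have := nonConst N
  rw [← natCast_zsmul x m, ← natCast_zsmul y m]
  exact weil_mul_pow hn hm (zsmul_of_mem_tors hx) (zsmul_of_mem_tors hy)

end Fermat.Agent.S15.Pair.WeilJ

end
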